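import Fermat.Agent.RIB.Ctrl.Nil
import Fermat.Agent.ML.Main.Ctx

/-!
# ML / Low / Ctrl / Nil : port of the `ECtx` part of `RIB/Ctrl/Nil.lean` to `MCtx`

* `MCtx.tr_nil`, `frobP_nil` ([NIL]), `unip_nil` ((UNIP)).
-/

set_option autoImplicit false

noncomputable section

open AlgebraicCurve ModularCurve

namespace Fermat.Agent.ML

open Fermat.Agent.RIB

local notation "Qbar" => AlgebraicClosure ℚ
local notation "GQ" => (AlgebraicClosure ℚ ≃ₐ[ℚ] AlgebraicClosure ℚ)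
local notation "M₂" => Matrix (Fin 2) (Fin 2)

variable {L p : ℕ} [NeZero L]
variable [Fact p.Prime] {T : Finset ℕ} {θ : ℕ → ℤ} {rbar0 : GQ →* M₂ (ZMod p)}

/-- `tr_nil` in terms of `MCtx`. -/
theorem MCtx.tr_nil (C : MCtx p T θ rbar0) (S : Finset ℕ) (hTS : T ⊆ S)
    (hL : ∀ r : ℕ, r.Prime → r ∣ L * p → r ∈ S)
    (g : GQ) (a : ℤ) (ha : (rbar0 g).trace = ((a : ℤ) : ZMod p))
    (x : JZero L) (hx : x ∈ thetaPart L p (↑S : Set ℕ) θ) (j : ℕ) (hj : p ^ j • x = 0)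
    (c : ℕ) (hc : ∀ ζ : Qbar, ζ ^ (p ^ j) = 1 → g ζ = ζ ^ c) :
    ∃ N : ℕ, (trOp (JZero L) g (c : ℤ) a ^ N) x = 0 :=
  RIB.tr_nil Fact.out S hL θ rbar0 C.cont
    (fun r hr hrS => C.frob r hr (fun h => hrS (hTS h))) g a ha x hx j hj c hc
end Fermat.Agent.ML

namespace Fermat.Agent.ML.Low

open Fermat.Agent.RIB

local notation "Qbar" => AlgebraicClosure ℚ
local notation "GQ" => (AlgebraicClosure ℚ ≃ₐ[ℚ] AlgebraicClosure ℚ)
local notation "M₂" => Matrix (Fin 2) (Fin 2)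

variable {L p : ℕ} [NeZero L]
variable [Fact p.Prime] {T : Finset ℕ} {θ : ℕ → ℤ} {rbar0 : GQ →* M₂ (ZMod p)}

/-- **[NIL]** : `s² - θ(l) s + l` is nilpotent at every `x` of the `θ`-part, for every Frobenius `s` at `A | l`, `l ∉ T`; at EVERY level
(`l` may divide `L`; no `I_l`-fixedness). -/
theorem frobP_nil (C : MCtx p T θ rbar0) (S : Finset ℕ) (hTS : T ⊆ S)
    (hL : ∀ r : ℕ, r.Prime → r ∣ L * p → r ∈ S) {l : ℕ} (hl : l.Prime) (hlT : l ∉ T)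
    {A : ValuationSubring Qbar} (hA : A.LiesOverPrime l) {s : GQ} (hs : A.IsFrobeniusAt s l) :
    ∀ x ∈ thetaPart L p (↑S : Set ℕ) θ, ∃ N : ℕ, (frobP (JZero L) s (θ l) (l : ℤ) ^ N) x = 0 := by
  intro x hx
  have hp : p.Prime := Fact.out
  obtain ⟨j, hj⟩ := hx.1
  have hlp : ¬ l ∣ p ^ j := fun h => by
    have h1 := (Nat.prime_dvd_prime_iff_eq hl hp).1 (hl.dvd_of_dvd_pow h)
    exact hlT (h1 ▸ C.p_mem)
  obtain ⟨N, hN⟩ := C.tr_nil S hTS hL s (θ l) (C.frob l hl hlT A hA s hs).1 x hx j hj l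
    (fun ζ hζ => Cheb.apply_rootOfUnity_of_isFrobeniusAt hl hA hlp hs hζ)
  exact ⟨N, frobP_pow_eq_zero_of_trOp s (θ l) (l : ℤ) N x hN⟩

/-- **(UNIP)** : `τ` with `rbar0 τ = 1` fixing `μ_{p^∞}` is unipotent on the `θ`-part: `(τ - 1)^N x = 0`. -/
theorem unip_nil (C : MCtx p T θ rbar0) (S : Finset ℕ) (hTS : T ⊆ S)
    (hL : ∀ r : ℕ, r.Prime → r ∣ L * p → r ∈ S) (τ : GQ) (hτ : rbar0 τ = 1)
    (hζ : ∀ (j : ℕ) (ζ : Qbar), ζ ^ (p ^ j) = 1 → τ ζ = ζ) :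
    ∀ x ∈ thetaPart L p (↑S : Set ℕ) θ,
      ∃ N : ℕ, ((actEnd (JZero L) τ - 1) ^ N) x = 0 := by
  intro x hx
  obtain ⟨j, hj⟩ := hx.1
  obtain ⟨N, hN⟩ := C.tr_nil S hTS hL τ 2 (by rw [hτ, Matrix.trace_one]; simp) x hx j hj 1
    (fun ζ h => by rw [pow_one]; exact hζ j ζ h)
  refine ⟨2 * N, ?_⟩
  have e : (actEnd (JZero L) τ - 1) ^ 2 = actEnd (JZero L) τ * trOp (JZero L) τ ((1 : ℕ) : ℤ) 2 := by
    apply LinearMap.ext
    intro y
    rw [pow_two, Module.End.mul_apply, Module.End.mul_apply, trOp_apply]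
    simp only [LinearMap.sub_apply, Module.End.one_apply, actEnd_apply, smul_sub, smul_add,
      Nat.cast_one, one_smul, smul_inv_smul, smul_zsmul_comm']
    rw [two_zsmul]
    abel
  have hc := commute_trOp_actEnd (J := JZero L) τ 2 ((1 : ℕ) : ℤ)
  rw [pow_mul, e, hc.symm.mul_pow, Module.End.mul_apply, hN, map_zero]
end Fermat.Agent.ML.Low
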